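/-
S56 / leaf H1 (helper10): THE PLACES DICTIONARY, part (a) — the global side.

For a prime `q` the prelude fixes ONE place of `ℚ̄` over `q`, `padicPlace q` (the pull-back of the
integers of `PadicAlgCl q` along `padicEmbedding q`), and S55 computes with the local group
`primeLocalGaloisGroup q = Gal(PadicAlgCl q/ℚ_q)` mapped to `Γ = Gal(ℚ̄/ℚ)` by
`primeLocalToGlobal q`.  The frozen local conditions of S56 (`IsUnramifiedAt`,
`IsUnipotentOnInertiaAt`, `IsStrictOrdinaryAt`, `IsFrobeniusAt`, …) quantify over ALL valuation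
subrings `P` of `ℚ̄` over `q`.  This file is the dictionary between the two:

* `eq_of_primeOf_eq`, `exists_smul_padicPlace_eq` : `Γ` acts transitively on the valuation subrings
  of `ℚ̄` over `q` (every one is `g • padicPlace q`);
* `forall_inertia_iff` : a conjugation-invariant property of inertia elements holds at every place
  over `q` iff it holds at `padicPlace q`; instances: `isUnramifiedAt_iff` (adic),
  `residual_isUnramifiedAt_iff`, `isUnipotentOnInertiaAt_iff`;
* `localInertia q` : the inertia subgroup of the local group (`comap` of the inertia group of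
  `padicPlace q`), normal; `range_primeLocalToGlobal`, `map_localInertia`,
  `primeLocalToGlobal_injective`;
* the conditions in local terms: `isUnramifiedAt_iff_local`, `isUnipotentOnInertiaAt_iff_local`,
  `IsStrictOrdinaryAt.at_padicPlace`.
-/
import Mathlib
import Fermat.Prelude.Def_GaloisRep_StrictOrdinary
import Fermat.Prelude.Def_ExtEndgame_ProductionDatum
import Fermat.Prelude.Def_EllipticCurve_FrobeniusTrace
import Fermat.Agent.S55.InertiaConj
import Fermat.Agent.S55.LocalDict
import Fermat.Agent.S55.GL.PlacesPrime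

set_option autoImplicit false
set_option linter.unusedSectionVars false

open scoped Pointwise

namespace Fermat.Agent.S56.Places.Dict

local notation "Qbar" => AlgebraicClosure ℚ
local notation "Γ" => (AlgebraicClosure ℚ ≃ₐ[ℚ] AlgebraicClosure ℚ)
local notation "Zbar" => integralClosure ℤ (AlgebraicClosure ℚ)

open Fermat.Agent.S55.InertiaConj Fermat.Agent.S13.InertiaLift ExtCitation

/-! ### Transitivity of `Γ` on the places over `q` -/

section Transitive

variable (q : ℕ) [Fact q.Prime]

theorem liesOverPrime_padicPlace : (padicPlace q).LiesOverPrime q := by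
  have h := Fermat.Agent.S55.GL.Places.liesOverPrime_placeSub q 1
  simpa [Fermat.Agent.S55.GL.Places.placeSub] using h

theorem isAlgebraic_int (x : Qbar) : IsAlgebraic ℤ x :=
  Fermat.Agent.S54.isAlgebraic_int_Qbar x

/-- A valuation subring of `ℚ̄` over `q` is determined by its prime of `ℤ̄`: one inclusion. -/
theorem le_of_primeOf_eq {A B : ValuationSubring Qbar} (hA : A.LiesOverPrime q)
    (h : primeOf A = primeOf B) : A ≤ B := by
  intro x hx
  obtain ⟨b, s, hb, hs, hsA, hxs⟩ :=
    Fermat.Agent.S54.exists_integral_fraction A (Fact.out : q.Prime) hA hx (isAlgebraic_int x)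
  have hbB : b ∈ B := Fermat.Agent.S54.mem_valuationSubring_of_isIntegral_int B hb
  have hsB : s ∈ B := Fermat.Agent.S54.mem_valuationSubring_of_isIntegral_int B hs
  have hsB' : s ∉ B.nonunits := by
    intro hmem
    apply hsA
    have h1 : (⟨s, hs⟩ : Zbar) ∈ primeOf B := (mem_primeOf B ⟨s, hs⟩).2 hmem
    rw [← h] at h1
    exact (mem_primeOf A ⟨s, hs⟩).1 h1
  have hs0 : s ≠ 0 := by
    rintro rfl
    exact hsB' (B.mem_nonunits_iff.mpr (by rw [map_zero]; exact zero_lt_one))
  -- `s` is a unit of `B`, so `x = b / s ∈ B`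
  have hval : B.valuation s = 1 := by
    have hle : B.valuation s ≤ 1 := (B.valuation_le_one_iff _).mpr hsB
    have hnlt : ¬ B.valuation s < 1 := fun hlt => hsB' (B.mem_nonunits_iff.mpr hlt)
    exact le_antisymm hle (not_lt.mp hnlt)
  rw [← B.valuation_le_one_iff]
  have h2 := congrArg B.valuation hxs
  rw [map_mul, hval, mul_one] at h2
  rw [h2]
  exact (B.valuation_le_one_iff _).mpr hbB

theorem eq_of_primeOf_eq {A B : ValuationSubring Qbar} (hA : A.LiesOverPrime q)
    (hB : B.LiesOverPrime q) (h : primeOf A = primeOf B) : A = B :=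
  le_antisymm (le_of_primeOf_eq q hA h) (le_of_primeOf_eq q hB h.symm)

theorem primeOf_smul (g : Γ) (B : ValuationSubring Qbar) : primeOf (g • B) = g • primeOf B := by
  ext b
  rw [mem_primeOf, Ideal.mem_pointwise_smul_iff_inv_smul_mem, mem_primeOf, mem_nonunits_smul_iff]
  rfl

/-- **`Γ` acts transitively on the valuation subrings of `ℚ̄` over `q`.** -/
theorem exists_smul_eq {A B : ValuationSubring Qbar} (hA : A.LiesOverPrime q)
    (hB : B.LiesOverPrime q) : ∃ g : Γ, A = g • B := by
  obtain ⟨g, hg⟩ := Fermat.Agent.S55.GL.Places.exists_primeOf_eq_smul q A B hA hB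
  refine ⟨g, eq_of_primeOf_eq q hA (liesOverPrime_smul B g hB) ?_⟩
  rw [hg, primeOf_smul]

/-- Every valuation subring of `ℚ̄` over `q` is a conjugate of `padicPlace q`. -/
theorem exists_smul_padicPlace_eq {A : ValuationSubring Qbar} (hA : A.LiesOverPrime q) :
    ∃ g : Γ, A = g • padicPlace q :=
  exists_smul_eq q hA (liesOverPrime_padicPlace q)

end Transitive

/-! ### Conjugation-invariant conditions on inertia: it suffices to look at `padicPlace q` -/

section Invariant

variable (q : ℕ) [Fact q.Prime]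

/-- A conjugation-invariant predicate holds on the inertia groups of all places over `q` iff it holds
on the inertia group of `padicPlace q`. -/
theorem forall_inertia_iff (C : Γ → Prop) (hC : ∀ g σ : Γ, C σ → C (g * σ * g⁻¹)) :
    (∀ P : ValuationSubring Qbar, P.LiesOverPrime q → ∀ σ ∈ P.inertiaSubgroupIn ℚ, C σ) ↔
      ∀ σ ∈ (padicPlace q).inertiaSubgroupIn ℚ, C σ := by
  constructor
  · intro h
    exact h _ (liesOverPrime_padicPlace q)
  · intro h P hP σ hσ
    obtain ⟨g, rfl⟩ := exists_smul_padicPlace_eq q hP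
    have h1 := conj_mem_inertiaSubgroupIn (g • padicPlace q) g⁻¹ σ hσ
    rw [inv_smul_smul, inv_inv] at h1
    have h2 := hC g _ (h _ h1)
    have e : g * (g⁻¹ * σ * g) * g⁻¹ = σ := by group
    rwa [e] at h2

/-- The same for the decomposition groups. -/
theorem forall_decomposition_iff (C : Γ → Prop) (hC : ∀ g σ : Γ, C σ → C (g * σ * g⁻¹)) :
    (∀ P : ValuationSubring Qbar, P.LiesOverPrime q → ∀ σ ∈ P.decompositionSubgroup ℚ, C σ) ↔
      ∀ σ ∈ (padicPlace q).decompositionSubgroup ℚ, C σ := by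
  constructor
  · intro h
    exact h _ (liesOverPrime_padicPlace q)
  · intro h P hP σ hσ
    obtain ⟨g, rfl⟩ := exists_smul_padicPlace_eq q hP
    have h1 := conj_mem_decompositionSubgroup (g • padicPlace q) g⁻¹ σ hσ
    rw [inv_smul_smul, inv_inv] at h1
    have h2 := hC g _ (h _ h1)
    have e : g * (g⁻¹ * σ * g) * g⁻¹ = σ := by group
    rwa [e] at h2

variable {A : Type} [CommRing A] [IsLocalRing A]

theorem isUnramifiedAt_iff (ρ : GaloisRepAdic A) :
    ρ.IsUnramifiedAt q ↔ ∀ σ ∈ (padicPlace q).inertiaSubgroupIn ℚ, ρ.ρ σ = 1 := by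
  refine forall_inertia_iff q (fun σ => ρ.ρ σ = 1) (fun g σ h => ?_)
  show ρ.ρ (g * σ * g⁻¹) = 1
  rw [map_mul, map_mul, h, mul_one, ← map_mul, mul_inv_cancel, map_one]

theorem residual_isUnramifiedAt_iff {k : Type} [Field k] (ρ : ResidualGaloisRep k) :
    ρ.IsUnramifiedAt q ↔ ∀ σ ∈ (padicPlace q).inertiaSubgroupIn ℚ, ρ.ρ σ = 1 := by
  refine forall_inertia_iff q (fun σ => ρ.ρ σ = 1) (fun g σ h => ?_)
  show ρ.ρ (g * σ * g⁻¹) = 1
  rw [map_mul, map_mul, h, mul_one, ← map_mul, mul_inv_cancel, map_one]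

/-- The characteristic polynomial is invariant under conjugation. -/
theorem charpoly_conj (ρ : GaloisRepAdic A) (g σ : Γ) :
    LinearMap.charpoly (ρ.ρ (g * σ * g⁻¹)) = LinearMap.charpoly (ρ.ρ σ) := by
  have hinv : ρ.ρ g * ρ.ρ g⁻¹ = 1 := by rw [← map_mul, mul_inv_cancel, map_one]
  have hinv' : ρ.ρ g⁻¹ * ρ.ρ g = 1 := by rw [← map_mul, inv_mul_cancel, map_one]
  let e : ρ.V ≃ₗ[A] ρ.V := LinearEquiv.ofLinearMap (ρ.ρ g) (ρ.ρ g⁻¹) hinv hinv'
  have h : ρ.ρ (g * σ * g⁻¹) = e.conj (ρ.ρ σ) := by
    rw [map_mul, map_mul]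
    rfl
  rw [h, LinearEquiv.charpoly_conj]

theorem isUnipotentOnInertiaAt_iff (ρ : GaloisRepAdic A) :
    ρ.IsUnipotentOnInertiaAt q ↔ ∀ σ ∈ (padicPlace q).inertiaSubgroupIn ℚ,
      LinearMap.charpoly (ρ.ρ σ) = (Polynomial.X - 1) ^ 2 := by
  refine forall_inertia_iff q (fun σ => LinearMap.charpoly (ρ.ρ σ) = (Polynomial.X - 1) ^ 2)
    (fun g σ h => ?_)
  show LinearMap.charpoly (ρ.ρ (g * σ * g⁻¹)) = _
  rw [charpoly_conj, h]

end Invariant

/-! ### The local group and its inertia subgroup -/

section Local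

variable (q : Nat.Primes)

instance factPrime : Fact ((q : ℕ).Prime) := ⟨q.2⟩

theorem primeLocalPlace_eq : primeLocalPlace q = padicPlace (q : ℕ) := rfl

theorem primeLocalToGlobal_eq : primeLocalToGlobal q = localGaloisToGlobal (q : ℕ) := rfl

theorem liesOverPrime_primeLocalPlace : (primeLocalPlace q).LiesOverPrime (q : ℕ) :=
  liesOverPrime_padicPlace (q : ℕ)

theorem primeLocalToGlobal_injective : Function.Injective (primeLocalToGlobal q) :=
  Fermat.Agent.S55.LocalDict.localGaloisToGlobal_injective (q : ℕ)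

/-- The image of the local group is the decomposition group of `primeLocalPlace q`. -/
theorem range_primeLocalToGlobal :
    (primeLocalToGlobal q).range = (primeLocalPlace q).decompositionSubgroup ℚ :=
  Fermat.Agent.S55.LocalDict.range_localGaloisToGlobal (q : ℕ)

theorem primeLocalToGlobal_mem_decomposition (τ : primeLocalGaloisGroup q) :
    primeLocalToGlobal q τ ∈ (primeLocalPlace q).decompositionSubgroup ℚ := by
  rw [← range_primeLocalToGlobal]
  exact ⟨τ, rfl⟩

theorem exists_primeLocalToGlobal_eq {σ : Γ}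
    (hσ : σ ∈ (primeLocalPlace q).decompositionSubgroup ℚ) :
    ∃ τ : primeLocalGaloisGroup q, primeLocalToGlobal q τ = σ := by
  rw [← range_primeLocalToGlobal] at hσ
  exact hσ

/-- **The inertia subgroup of the local group** `Gal(PadicAlgCl q/ℚ_q)`. -/
noncomputable def localInertia : Subgroup (primeLocalGaloisGroup q) :=
  ((primeLocalPlace q).inertiaSubgroupIn ℚ).comap (primeLocalToGlobal q)

theorem mem_localInertia_iff (τ : primeLocalGaloisGroup q) :
    τ ∈ localInertia q ↔ primeLocalToGlobal q τ ∈ (primeLocalPlace q).inertiaSubgroupIn ℚ :=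
  Iff.rfl

theorem inertia_le_decomposition (P : ValuationSubring Qbar) :
    P.inertiaSubgroupIn ℚ ≤ P.decompositionSubgroup ℚ := fun _ hσ =>
  ((mem_inertiaSubgroupIn_iff P _).1 hσ).1

/-- The inertia group of `P` is normalised by the decomposition group of `P`. -/
theorem conj_mem_inertia_of_mem_decomposition (P : ValuationSubring Qbar) {g σ : Γ}
    (hg : g ∈ P.decompositionSubgroup ℚ) (hσ : σ ∈ P.inertiaSubgroupIn ℚ) :
    g * σ * g⁻¹ ∈ P.inertiaSubgroupIn ℚ := by
  have h := conj_mem_inertiaSubgroupIn P g σ hσ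
  have hP : g • P = P := MulAction.mem_stabilizer_iff.mp hg
  rwa [hP] at h

instance localInertia_normal : (localInertia q).Normal := by
  constructor
  intro τ hτ g
  rw [mem_localInertia_iff] at hτ ⊢
  rw [map_mul, map_mul, map_inv]
  exact conj_mem_inertia_of_mem_decomposition _ (primeLocalToGlobal_mem_decomposition q g) hτ

theorem map_localInertia :
    (localInertia q).map (primeLocalToGlobal q) = (primeLocalPlace q).inertiaSubgroupIn ℚ := by
  rw [localInertia, Subgroup.map_comap_eq, range_primeLocalToGlobal]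
  exact inf_eq_right.mpr (inertia_le_decomposition _)

variable {A : Type} [CommRing A] [IsLocalRing A]

/-- `IsUnramifiedAt q` in terms of the local group. -/
theorem isUnramifiedAt_iff_local (ρ : GaloisRepAdic A) :
    ρ.IsUnramifiedAt (q : ℕ) ↔ ∀ τ ∈ localInertia q, ρ.ρ (primeLocalToGlobal q τ) = 1 := by
  rw [isUnramifiedAt_iff]
  constructor
  · intro h τ hτ
    exact h _ hτ
  · intro h σ hσ
    obtain ⟨τ, rfl⟩ := exists_primeLocalToGlobal_eq q (inertia_le_decomposition _ hσ)
    exact h τ hσ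

theorem residual_isUnramifiedAt_iff_local {k : Type} [Field k] (ρ : ResidualGaloisRep k) :
    ρ.IsUnramifiedAt (q : ℕ) ↔ ∀ τ ∈ localInertia q, ρ.ρ (primeLocalToGlobal q τ) = 1 := by
  rw [residual_isUnramifiedAt_iff]
  constructor
  · intro h τ hτ
    exact h _ hτ
  · intro h σ hσ
    obtain ⟨τ, rfl⟩ := exists_primeLocalToGlobal_eq q (inertia_le_decomposition _ hσ)
    exact h τ hσ

/-- `IsUnipotentOnInertiaAt q` in terms of the local group. -/
theorem isUnipotentOnInertiaAt_iff_local (ρ : GaloisRepAdic A) :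
    ρ.IsUnipotentOnInertiaAt (q : ℕ) ↔ ∀ τ ∈ localInertia q,
      LinearMap.charpoly (ρ.ρ (primeLocalToGlobal q τ)) = (Polynomial.X - 1) ^ 2 := by
  rw [isUnipotentOnInertiaAt_iff]
  constructor
  · intro h τ hτ
    exact h _ hτ
  · intro h σ hσ
    obtain ⟨τ, rfl⟩ := exists_primeLocalToGlobal_eq q (inertia_le_decomposition _ hσ)
    exact h τ hσ

/-- The strict-ordinary datum at the distinguished place, in terms of the local group. -/
theorem IsStrictOrdinaryAt.at_padicPlace {ρ : GaloisRepAdic A} (h : ρ.IsStrictOrdinaryAt (q : ℕ)) :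
    ∃ L : Submodule A ρ.V,
      (∃ b : Module.Basis (Fin 2) A ρ.V, L = A ∙ b 0) ∧
      (∀ τ : primeLocalGaloisGroup q, ∀ v ∈ L, ρ.ρ (primeLocalToGlobal q τ) v ∈ L) ∧
      (∀ τ ∈ localInertia q, ∀ v : ρ.V, ρ.ρ (primeLocalToGlobal q τ) v - v ∈ L) ∧
      (∀ τ : primeLocalGaloisGroup q, ∃ x z : A,
        (∀ w ∈ L, ρ.ρ (primeLocalToGlobal q τ) w = x • w) ∧
        (∀ v : ρ.V, ρ.ρ (primeLocalToGlobal q τ) v - z • v ∈ L) ∧
        ∀ (n a : ℕ), (∀ μ : Qbar, μ ^ (q : ℕ) ^ n = 1 → primeLocalToGlobal q τ μ = μ ^ a) →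
          x - (a : A) * z ∈ Ideal.span {(((q : ℕ) ^ n : ℕ) : A)}) := by
  obtain ⟨L, hb, hD, hI, hxz⟩ := h.2 (primeLocalPlace q) (liesOverPrime_primeLocalPlace q)
  exact ⟨L, hb, fun τ v hv => hD _ (primeLocalToGlobal_mem_decomposition q τ) v hv,
    fun τ hτ v => hI _ hτ v, fun τ => hxz _ (primeLocalToGlobal_mem_decomposition q τ)⟩

end Local

end Fermat.Agent.S56.Places.Dict
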