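/-
S56, block H1b of the blueprint (`moonshots` row 50), leaves (B) + (P4) (helper27): **Frobenius
elements of the local group and the structure of `G_q / I_q`.**

`r := primeLocalToGlobal q : G_q = Gal(ℚ̄_q/ℚ_q) → Γ = Gal(ℚ̄/ℚ)`, `I_q := Dict.localInertia q`,
`P_q := primeLocalPlace q`.

* general valuation subrings: `mem_inertiaSubgroupIn_iff_smul`, `isFrobeniusAt_iff_forall`
  (elementwise form of the frozen `IsFrobeniusAt`), `IsFrobeniusAt.pow_smul`,
  `IsFrobeniusAt.mul_of_mem_inertia`, `IsFrobeniusAt.inv_mul_mem_inertia`, `isFrobeniusAt_smul_iff`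
  (conjugation), `forall_isFrobeniusAt_iff` (a conjugation-invariant predicate holds for all
  Frobenius elements at all places over `q` iff it does at `padicPlace q`);
* `IsLocalFrob q φ`, `exists_isLocalFrob`, (P4) `isFrobeniusAt_iff_of_isLocalFrob`;
* (B) `isLocalFrob_gen`, `isLocalFrob_div`: the two non-trivial fields of `UnramData
  (localLevel (primeLocalToGlobal q)) (localInertia q) φ` (`S56/PT/Unram.lean`), verbatim.
-/
import Mathlib
import Fermat.Agent.S56.Places.Dict
import Fermat.Agent.N4.FrobDensity.Qbar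
import Fermat.Agent.S55.LevelGalois
import Fermat.Agent.S55.GL.KummerUnram

set_option autoImplicit false
set_option linter.unusedSectionVars false
set_option linter.style.haveILetI false

open scoped Pointwise

namespace Fermat.Agent.S56.Places.Frob

local notation "Qbar" => AlgebraicClosure ℚ
local notation "Γ" => (AlgebraicClosure ℚ ≃ₐ[ℚ] AlgebraicClosure ℚ)
local notation "Zbar" => integralClosure ℤ (AlgebraicClosure ℚ)

open Fermat.Agent.S55.InertiaConj Fermat.Agent.S56.Places.Dict ExtCitation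
open Fermat.Agent.S55.Level
open IntermediateField

/-! ### finite fields: endomorphisms are powers of the Frobenius -/

/-- a ring endomorphism of a field of characteristic `q` acts as a power of the Frobenius on the
subring generated by finitely many elements which are integral over `ℤ` -/
theorem exists_pow_eq_of_ringHom (q : ℕ) [hq : Fact q.Prime] {κ : Type*} [Field κ] [CharP κ q]
    (f : κ →+* κ) (S : Finset κ) (hS : ∀ x ∈ S, IsIntegral ℤ x) :
    ∃ j : ℕ, ∀ x ∈ Subring.closure (S : Set κ), f x = x ^ q ^ j := by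
  classical
  letI : Algebra (ZMod q) κ := ZMod.algebra κ q
  have hS' : ∀ x ∈ (S : Set κ), IsIntegral (ZMod q) x := fun x hx => (hS x hx).tower_top
  let f' : κ →ₐ[ZMod q] κ :=
    { f with
      commutes' := fun r =>
        RingHom.congr_fun (Subsingleton.elim (f.comp (algebraMap (ZMod q) κ))
          (algebraMap (ZMod q) κ)) r }
  let k' : IntermediateField (ZMod q) κ := IntermediateField.adjoin (ZMod q) (S : Set κ)
  haveI : FiniteDimensional (ZMod q) k' :=
    IntermediateField.finiteDimensional_adjoin (fun x hx => hS' x hx)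
  haveI : Finite k' := Module.finite_of_finite (ZMod q)
  let g : k' →ₐ[ZMod q] k' := f'.restrictNormal k'
  obtain ⟨n, hn⟩ := (FiniteField.bijective_frobeniusAlgHom_pow (ZMod q) k').2 g
  refine ⟨n, fun x hx => ?_⟩
  have hxk : x ∈ k' := by
    have h1 : Subring.closure (S : Set κ) ≤ k'.toSubfield.toSubring :=
      Subring.closure_le.2 (fun y hy => IntermediateField.subset_adjoin (ZMod q) _ hy)
    exact h1 hx
  have h2 := f'.restrictNormal_commutes k' ⟨x, hxk⟩
  have h3 : f x = ((g ⟨x, hxk⟩ : k') : κ) := h2.symm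
  rw [h3]
  have h4 : g = FiniteField.frobeniusAlgHom (ZMod q) k' ^ (n : ℕ) := hn.symm
  rw [h4, AlgHom.coe_pow, FiniteField.coe_frobeniusAlgHom, pow_iterate, ZMod.card]
  rfl

/-! ### Frobenius elements at a valuation subring -/

section General

variable {K L : Type*} [Field K] [Field L] [Algebra K L] (A : ValuationSubring L)

/-- membership in the inertia subgroup through the action on the residue field -/
theorem mem_inertiaSubgroupIn_iff_smul (σ : L ≃ₐ[K] L) :
    σ ∈ A.inertiaSubgroupIn K ↔ ∃ hσ : σ ∈ A.decompositionSubgroup K,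
      ∀ x : IsLocalRing.ResidueField A, (⟨σ, hσ⟩ : A.decompositionSubgroup K) • x = x := by
  constructor
  · rintro ⟨d, hd, rfl⟩
    refine ⟨d.2, fun x => ?_⟩
    have h1 : MulSemiringAction.toRingAut (A.decompositionSubgroup K)
        (IsLocalRing.ResidueField A) d = 1 := MonoidHom.mem_ker.1 hd
    exact RingEquiv.congr_fun h1 x
  · rintro ⟨hσ, h⟩
    refine ⟨⟨σ, hσ⟩, ?_, rfl⟩
    change (⟨σ, hσ⟩ : A.decompositionSubgroup K) ∈
      (MulSemiringAction.toRingAut (A.decompositionSubgroup K) (IsLocalRing.ResidueField A)).ker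
    rw [MonoidHom.mem_ker]
    ext x
    exact h x

/-- the residue of `σ a - a ^ n`, for `σ` in the decomposition group -/
theorem smul_residue_eq_pow_iff {σ : L ≃ₐ[K] L} (hσ : σ ∈ A.decompositionSubgroup K) (n : ℕ)
    (a : A) :
    (⟨σ, hσ⟩ : A.decompositionSubgroup K) • IsLocalRing.residue A a = IsLocalRing.residue A a ^ n ↔
      σ (a : L) - (a : L) ^ n ∈ A.nonunits := by
  rw [← IsLocalRing.ResidueField.residue_smul, ← map_pow, ← sub_eq_zero, ← map_sub,
    IsLocalRing.residue_eq_zero_iff, ← ValuationSubring.coe_mem_nonunits_iff]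
  rfl

/-- **the frozen `IsFrobeniusAt`, elementwise** -/
theorem isFrobeniusAt_iff_forall (σ : L ≃ₐ[K] L) (n : ℕ) :
    A.IsFrobeniusAt σ n ↔
      σ ∈ A.decompositionSubgroup K ∧ ∀ a ∈ A, σ a - a ^ n ∈ A.nonunits := by
  constructor
  · rintro ⟨hσ, h⟩
    exact ⟨hσ, fun a ha => (smul_residue_eq_pow_iff A hσ n ⟨a, ha⟩).1 (h _)⟩
  · rintro ⟨hσ, h⟩
    refine ⟨hσ, fun x => ?_⟩
    obtain ⟨a, rfl⟩ := IsLocalRing.residue_surjective x
    exact (smul_residue_eq_pow_iff A hσ n a).2 (h a a.2)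

variable {A}

theorem IsFrobeniusAt.pow_smul {σ : L ≃ₐ[K] L} {q : ℕ} (h : A.IsFrobeniusAt σ q) (j : ℕ)
    (x : IsLocalRing.ResidueField A) :
    ((⟨σ, h.mem_decompositionSubgroup⟩ : A.decompositionSubgroup K) ^ j) • x = x ^ q ^ j := by
  induction j generalizing x with
  | zero => simp
  | succ j ih =>
    rw [pow_succ, mul_smul, h.smul_residue_eq, ih, ← pow_mul, pow_succ, mul_comm]

theorem IsFrobeniusAt.mul_of_mem_inertia {σ t : L ≃ₐ[K] L} {q : ℕ} (h : A.IsFrobeniusAt σ q)
    (ht : t ∈ A.inertiaSubgroupIn K) : A.IsFrobeniusAt (σ * t) q := by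
  obtain ⟨ht1, ht2⟩ := (mem_inertiaSubgroupIn_iff_smul A t).1 ht
  refine ⟨(A.decompositionSubgroup K).mul_mem h.mem_decompositionSubgroup ht1, fun x => ?_⟩
  have e : (⟨σ * t, (A.decompositionSubgroup K).mul_mem h.mem_decompositionSubgroup ht1⟩ :
      A.decompositionSubgroup K) = ⟨σ, h.mem_decompositionSubgroup⟩ * ⟨t, ht1⟩ := rfl
  rw [e, mul_smul, ht2, h.smul_residue_eq]

theorem IsFrobeniusAt.inv_mul_mem_inertia {σ τ : L ≃ₐ[K] L} {q : ℕ} (h : A.IsFrobeniusAt σ q)
    (h' : A.IsFrobeniusAt τ q) : σ⁻¹ * τ ∈ A.inertiaSubgroupIn K := by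
  rw [mem_inertiaSubgroupIn_iff_smul]
  have hm : σ⁻¹ * τ ∈ A.decompositionSubgroup K :=
    (A.decompositionSubgroup K).mul_mem
      ((A.decompositionSubgroup K).inv_mem h.mem_decompositionSubgroup)
      h'.mem_decompositionSubgroup
  refine ⟨hm, fun x => ?_⟩
  have e : (⟨σ⁻¹ * τ, hm⟩ : A.decompositionSubgroup K) =
      (⟨σ, h.mem_decompositionSubgroup⟩ : A.decompositionSubgroup K)⁻¹ *
        ⟨τ, h'.mem_decompositionSubgroup⟩ := rfl
  rw [e, mul_smul, h'.smul_residue_eq, ← h.smul_residue_eq, inv_smul_smul]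

variable (A)

/-- conjugation of Frobenius elements, one direction -/
theorem isFrobeniusAt_conj (g : L ≃ₐ[K] L) {σ : L ≃ₐ[K] L} {n : ℕ} (h : A.IsFrobeniusAt σ n) :
    (g • A).IsFrobeniusAt (g * σ * g⁻¹) n := by
  rw [isFrobeniusAt_iff_forall] at h ⊢
  refine ⟨conj_mem_decompositionSubgroup A g σ h.1, fun x hx => ?_⟩
  rw [mem_smul_iff] at hx
  rw [mem_nonunits_smul_iff]
  have h1 := h.2 _ hx
  have e : g.symm ((g * σ * g⁻¹) x - x ^ n) = σ (g.symm x) - g.symm x ^ n := by
    rw [map_sub, map_pow]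
    congr 1
    change g.symm (g (σ (g.symm x))) = _
    exact g.symm_apply_apply _
  rw [e]
  exact h1

/-- **conjugation of Frobenius elements** -/
theorem isFrobeniusAt_smul_iff (g σ : L ≃ₐ[K] L) (n : ℕ) :
    (g • A).IsFrobeniusAt (g * σ * g⁻¹) n ↔ A.IsFrobeniusAt σ n := by
  refine ⟨fun h => ?_, isFrobeniusAt_conj A g⟩
  have h1 := isFrobeniusAt_conj (g • A) g⁻¹ h
  rw [inv_smul_smul] at h1
  have e : g⁻¹ * (g * σ * g⁻¹) * g⁻¹⁻¹ = σ := by group
  rwa [e] at h1

end General

/-! ### all places over `q` -/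

section AllPlaces

variable (q : ℕ) [Fact q.Prime]

/-- A conjugation-invariant predicate holds for the Frobenius elements of all places over `q` iff it
holds for the Frobenius elements of `padicPlace q`. -/
theorem forall_isFrobeniusAt_iff (C : Γ → Prop) (hC : ∀ g σ : Γ, C σ → C (g * σ * g⁻¹)) :
    (∀ P : ValuationSubring Qbar, P.LiesOverPrime q → ∀ φ : Γ, P.IsFrobeniusAt φ q → C φ) ↔
      ∀ φ : Γ, (padicPlace q).IsFrobeniusAt φ q → C φ := by
  constructor
  · intro h
    exact h _ (liesOverPrime_padicPlace q)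
  · intro h P hP φ hφ
    obtain ⟨g, rfl⟩ := exists_smul_padicPlace_eq q hP
    have h1 := isFrobeniusAt_conj (g • padicPlace q) g⁻¹ hφ
    rw [inv_smul_smul, inv_inv] at h1
    have h2 := hC g _ (h _ h1)
    have e : g * (g⁻¹ * φ * g) * g⁻¹ = φ := by group
    rwa [e] at h2

end AllPlaces

/-! ### `D/I` is generated by the Frobenius -/

section Core

variable (A : ValuationSubring Qbar)

theorem charP_residueField {q : ℕ} (hq : q.Prime) (hA : A.LiesOverPrime q) :
    CharP (IsLocalRing.ResidueField A) q := by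
  rw [CharP.charP_iff_prime_eq_zero hq]
  have hqA : (q : Qbar) ∈ A := A.nonunits_le hA
  have h1 : IsLocalRing.residue A (⟨(q : Qbar), hqA⟩ : A) = 0 := by
    rw [IsLocalRing.residue_eq_zero_iff, ← ValuationSubring.coe_mem_nonunits_iff]
    exact hA
  have h2 : (⟨(q : Qbar), hqA⟩ : A) = (q : A) := Subtype.ext (by simp)
  rw [h2, map_natCast] at h1
  exact h1

/-- the residue map on the integers of a number field inside `ℚ̄` -/
noncomputable def resInt (F : IntermediateField ℚ Qbar) :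
    NumberField.RingOfIntegers F →+* IsLocalRing.ResidueField A :=
  (IsLocalRing.residue A).comp
    (((algebraMap F Qbar).comp (algebraMap (NumberField.RingOfIntegers F) F)).codRestrict
      A.toSubring (fun x => Fermat.Agent.S54.mem_valuationSubring_of_isIntegral_int A
        ((NumberField.RingOfIntegers.isIntegral_coe x).map
          ((algebraMap F Qbar).toIntAlgHom))))

theorem resInt_apply (F : IntermediateField ℚ Qbar) (x : NumberField.RingOfIntegers F)
    (hx : (((x : F) : Qbar)) ∈ A) :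
    resInt A F x = IsLocalRing.residue A ⟨((x : F) : Qbar), hx⟩ := rfl

/-- **`D/I` is generated by Frobenius, finite level**: for `σ` in the decomposition group of `A`
and a finite `F/ℚ` there are `j` and `t` in the inertia group with `t = Φ⁻ʲσ` on `F`. -/
theorem exists_inertia_agree {q : ℕ} (hq : q.Prime) (hA : A.LiesOverPrime q) {Φ σ : Γ}
    (hΦ : A.IsFrobeniusAt Φ q) (hσ : σ ∈ A.decompositionSubgroup ℚ)
    (F : IntermediateField ℚ Qbar) [FiniteDimensional ℚ F] :
    ∃ j : ℕ, ∃ t ∈ A.inertiaSubgroupIn ℚ, ∀ x ∈ F, t x = ((Φ ^ j)⁻¹ * σ) x := by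
  classical
  haveI : Fact q.Prime := ⟨hq⟩
  haveI : NumberField F := { to_charZero := inferInstance, to_finiteDimensional := inferInstance }
  haveI := charP_residueField A hq hA
  obtain ⟨s, hs⟩ := (Module.finite_def.1 inferInstance :
    (⊤ : Submodule ℤ (NumberField.RingOfIntegers F)).FG)
  set Ψ := resInt A F with hΨ
  set S : Finset (IsLocalRing.ResidueField A) := s.image Ψ with hSdef
  -- the residues of all integers of `F` lie in the subring generated by `S`
  have hmem : ∀ x : NumberField.RingOfIntegers F, Ψ x ∈ Subring.closure (S : Set _) := by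
    intro x
    have hx : x ∈ Submodule.span ℤ (s : Set (NumberField.RingOfIntegers F)) := by
      rw [hs]; trivial
    induction hx using Submodule.span_induction with
    | mem y hy =>
      exact Subring.subset_closure (Finset.mem_coe.2 (Finset.mem_image_of_mem Ψ hy))
    | zero => rw [map_zero]; exact Subring.zero_mem _
    | add y z _ _ hy hz => rw [map_add]; exact Subring.add_mem _ hy hz
    | smul n y _ hy => rw [map_zsmul]; exact Subring.zsmul_mem _ hy n
  have hSint : ∀ x ∈ S, IsIntegral ℤ x := by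
    intro x hx
    obtain ⟨y, -, rfl⟩ := Finset.mem_image.1 hx
    exact map_isIntegral_int Ψ (NumberField.RingOfIntegers.isIntegral y)
  -- the action of `σ` on the residue field
  set e : A.decompositionSubgroup ℚ := ⟨σ, hσ⟩ with he
  set d : A.decompositionSubgroup ℚ := ⟨Φ, hΦ.mem_decompositionSubgroup⟩ with hd
  obtain ⟨j, hj⟩ := exists_pow_eq_of_ringHom q
    (MulSemiringAction.toRingHom (A.decompositionSubgroup ℚ) (IsLocalRing.ResidueField A) e)
    S hSint
  refine ⟨j, ?_⟩
  have hmemD : (Φ ^ j)⁻¹ * σ ∈ A.decompositionSubgroup ℚ :=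
    (A.decompositionSubgroup ℚ).mul_mem ((A.decompositionSubgroup ℚ).inv_mem
      ((A.decompositionSubgroup ℚ).pow_mem hΦ.mem_decompositionSubgroup j)) hσ
  have heq : (⟨(Φ ^ j)⁻¹ * σ, hmemD⟩ : A.decompositionSubgroup ℚ) = (d ^ j)⁻¹ * e := rfl
  have hfix : ∀ x : NumberField.RingOfIntegers F,
      (⟨(Φ ^ j)⁻¹ * σ, hmemD⟩ : A.decompositionSubgroup ℚ) • Ψ x = Ψ x := by
    intro x
    have h1 : e • Ψ x = Ψ x ^ q ^ j := hj _ (hmem x)
    rw [heq, mul_smul, h1, ← IsFrobeniusAt.pow_smul hΦ j (Ψ x), inv_smul_smul]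
  refine Fermat.Agent.S13.InertiaLift.exists_mem_inertiaSubgroupIn_forall_eq F A hq hA _ ?_
  intro b hb hbF
  have hbA : b ∈ A := Fermat.Agent.S54.mem_valuationSubring_of_isIntegral_int A hb
  have hbF' : IsIntegral ℤ (⟨b, hbF⟩ : F) := by
    rw [← isIntegral_algebraMap_iff (algebraMap F Qbar).injective]
    exact hb
  have h2 := hfix ⟨⟨b, hbF⟩, hbF'⟩
  have h3 : Ψ ⟨⟨b, hbF⟩, hbF'⟩ = IsLocalRing.residue A ⟨b, hbA⟩ := rfl
  rw [h3] at h2
  have h4 := (smul_residue_eq_pow_iff A hmemD 1 ⟨b, hbA⟩).1 (by rw [pow_one]; exact h2)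
  rwa [pow_one] at h4

end Core

/-! ### roots of unity of order prime to the residue characteristic -/

section Roots

variable (A : ValuationSubring Qbar) {q : ℕ} (hA : A.LiesOverPrime q) {m : ℕ}
  (hm : Nat.Coprime m q)

include hA hm in
/-- a Frobenius element raises the roots of unity of order prime to `q` to the `q`-th power -/
theorem IsFrobeniusAt.apply_root {Φ : Γ} (hΦ : A.IsFrobeniusAt Φ q) {ω : Qbar}
    (hω : ω ^ m = 1) : Φ ω = ω ^ q := by
  have hmA : (m : Qbar) ∉ A.nonunits :=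
    Fermat.Agent.S55.GL.KummerUnram.natCast_not_mem_nonunits_of_coprime A hA hm
  have hm0 : m ≠ 0 := by
    rintro rfl
    apply hmA
    rw [A.mem_nonunits_iff]; simp
  have hv : A.valuation ω = 1 :=
    Fermat.Agent.S55.GL.KummerUnram.valuation_eq_one_of_valuation_pow_eq_one A hm0
      (by rw [hω]; simp)
  have hωA : ω ∈ A := Fermat.Agent.S55.GL.KummerUnram.mem_of_valuation_eq_one A hv
  have hω0 : ω ≠ 0 := by
    rintro rfl
    simp at hv
  have h1 : Φ ω - ω ^ q ∈ A.nonunits :=
    Fermat.Agent.N4.FrobDensity.sub_pow_mem_nonunits_of_isFrobeniusAt hΦ hωA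
  set η : Qbar := Φ ω / ω ^ q with hη
  have hηm : η ^ m = 1 := by
    rw [hη, div_pow, ← map_pow, hω, map_one, ← pow_mul, mul_comm, pow_mul, hω, one_pow, div_one]
  by_contra hne
  have hη1 : η ≠ 1 := by
    intro h
    apply hne
    rw [hη, div_eq_one_iff_eq (pow_ne_zero _ hω0)] at h
    exact h
  have h2 : η - 1 ∈ A.nonunits := by
    have : η - 1 = (Φ ω - ω ^ q) * (ω ^ q)⁻¹ := by
      rw [hη]; field_simp
    rw [this]
    refine Fermat.Agent.S55.GL.KummerUnram.mul_mem_nonunits_right A h1 ?_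
    apply Fermat.Agent.S55.GL.KummerUnram.mem_of_valuation_eq_one
    rw [map_inv₀, map_pow, hv, one_pow, inv_one]
  exact Fermat.Agent.S55.GL.KummerUnram.sub_one_not_mem_nonunits_of_pow_prime_eq_one A hmA hηm
    hη1 h2

include hA hm in
theorem IsFrobeniusAt.pow_apply_root {Φ : Γ} (hΦ : A.IsFrobeniusAt Φ q) (j : ℕ) {ω : Qbar}
    (hω : ω ^ m = 1) : (Φ ^ j) ω = ω ^ q ^ j := by
  induction j generalizing ω with
  | zero => simp
  | succ j ih =>
    rw [pow_succ, AlgEquiv.mul_apply, IsFrobeniusAt.apply_root A hA hm hΦ hω,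
      ih (by rw [← pow_mul, mul_comm, pow_mul, hω, one_pow]), ← pow_mul, pow_succ, mul_comm]

include hA hm in
/-- inertia fixes the roots of unity of order prime to `q` -/
theorem apply_root_of_mem_inertia {t : Γ} (ht : t ∈ A.inertiaSubgroupIn ℚ) {ω : Qbar}
    (hω : ω ^ m = 1) : t ω = ω := by
  have hmA : (m : Qbar) ∉ A.nonunits :=
    Fermat.Agent.S55.GL.KummerUnram.natCast_not_mem_nonunits_of_coprime A hA hm
  have hm0 : m ≠ 0 := by
    rintro rfl
    apply hmA
    rw [A.mem_nonunits_iff]; simp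
  have hv : A.valuation ω = 1 :=
    Fermat.Agent.S55.GL.KummerUnram.valuation_eq_one_of_valuation_pow_eq_one A hm0
      (by rw [hω]; simp)
  exact Fermat.Agent.S55.GL.KummerUnram.apply_eq_of_pow_prime_eq A hmA ht hv
    (by rw [hω, map_one])

end Roots

theorem dvd_of_pow_sub_one_dvd {q n j : ℕ} (hq : 2 ≤ q) (h : q ^ n - 1 ∣ q ^ j - 1) : n ∣ j := by
  have h1 := Nat.pow_sub_one_mod_pow_sub_one q n j
  rw [Nat.mod_eq_zero_of_dvd h] at h1
  have h2 : q ^ (j % n) ≤ 1 := by omega
  rw [Nat.dvd_iff_mod_eq_zero]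
  by_contra hne
  have h3 : q ^ 1 ≤ q ^ (j % n) := Nat.pow_le_pow_right (by omega) (by omega)
  rw [pow_one] at h3
  omega

/-! ### the local group -/

section Local

variable (q : Nat.Primes)

/-- `φ ∈ G_q` is a (lift of the) Frobenius: its image in `Γ` is a Frobenius element at THE place
of `q`. -/
def IsLocalFrob (φ : primeLocalGaloisGroup q) : Prop :=
  (primeLocalPlace q).IsFrobeniusAt (primeLocalToGlobal q φ) (q : ℕ)

theorem exists_isLocalFrob : ∃ φ : primeLocalGaloisGroup q, IsLocalFrob q φ := by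
  obtain ⟨σ, hσ⟩ := Fermat.Agent.N4.FrobDensity.exists_isFrobeniusAt_of_mem_nonunits
    (primeLocalPlace q) (q : ℕ) q.2 (liesOverPrime_primeLocalPlace q)
  obtain ⟨φ, rfl⟩ := exists_primeLocalToGlobal_eq q hσ.mem_decompositionSubgroup
  exact ⟨φ, hσ⟩

variable {q}

/-- **(P4)** the Frobenius elements at THE place of `q` are the images of the coset `φ · I_q`. -/
theorem isFrobeniusAt_iff_of_isLocalFrob {φ : primeLocalGaloisGroup q} (hφ : IsLocalFrob q φ)
    (σ : Γ) :
    (primeLocalPlace q).IsFrobeniusAt σ (q : ℕ) ↔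
      ∃ τ ∈ localInertia q, primeLocalToGlobal q (φ * τ) = σ := by
  constructor
  · intro h
    have h1 := IsFrobeniusAt.inv_mul_mem_inertia hφ h
    obtain ⟨τ, hτ⟩ := exists_primeLocalToGlobal_eq q (inertia_le_decomposition _ h1)
    refine ⟨τ, ?_, ?_⟩
    · rw [mem_localInertia_iff, hτ]; exact h1
    · rw [map_mul, hτ, mul_inv_cancel_left]
  · rintro ⟨τ, hτ, rfl⟩
    rw [map_mul]
    exact IsFrobeniusAt.mul_of_mem_inertia hφ hτ

/-- **(B), field `gen` of `UnramData`**: modulo inertia and any level, every element of `G_q` is a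
non-negative power of the Frobenius. -/
theorem isLocalFrob_gen {φ : primeLocalGaloisGroup q} (hφ : IsLocalFrob q φ) :
    ∀ U ∈ (localLevel (primeLocalToGlobal q)).sets, ∀ g : primeLocalGaloisGroup q,
      ∃ j : ℕ, (φ ^ j)⁻¹ * g ∈ localInertia q ⊔ U := by
  rintro U ⟨-, F, hF, hFU⟩ g
  haveI := hF
  obtain ⟨j, t, ht, hagree⟩ := exists_inertia_agree (primeLocalPlace q) q.2
    (liesOverPrime_primeLocalPlace q) hφ (primeLocalToGlobal_mem_decomposition q g) F
  obtain ⟨τ, hτ⟩ := exists_primeLocalToGlobal_eq q (inertia_le_decomposition _ ht)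
  refine ⟨j, ?_⟩
  have hτI : τ ∈ localInertia q := by rw [mem_localInertia_iff, hτ]; exact ht
  have hu : τ⁻¹ * ((φ ^ j)⁻¹ * g) ∈ U := by
    apply hFU
    rw [Subgroup.mem_comap, IntermediateField.mem_fixingSubgroup_iff]
    intro x hx
    rw [map_mul, map_inv, hτ, map_mul, map_inv, map_pow, AlgEquiv.mul_apply, ← hagree x hx]
    exact t.symm_apply_apply x
  have e : (φ ^ j)⁻¹ * g = τ * (τ⁻¹ * ((φ ^ j)⁻¹ * g)) := by group
  rw [e]
  exact Subgroup.mul_mem_sup hτI hu

/-- **(B), field `div` of `UnramData`**: `G_q / I_q` has cyclic quotients of every order, in which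
the Frobenius has exactly that order. -/
theorem isLocalFrob_div {φ : primeLocalGaloisGroup q} (hφ : IsLocalFrob q φ) :
    ∀ n, 0 < n → ∃ U ∈ (localLevel (primeLocalToGlobal q)).sets,
      ∀ j : ℕ, φ ^ j ∈ localInertia q ⊔ U → n ∣ j := by
  intro n hn
  have hq2 : 2 ≤ (q : ℕ) := q.2.two_le
  set m : ℕ := (q : ℕ) ^ n - 1 with hm
  have hqn : 2 ≤ (q : ℕ) ^ n := le_trans hq2 (Nat.le_self_pow hn.ne' _)
  have hm0 : m ≠ 0 := by omega
  have hcop : Nat.Coprime m (q : ℕ) := by
    refine Nat.Coprime.symm ((Nat.Prime.coprime_iff_not_dvd q.2).2 fun h => ?_)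
    have h1 : (q : ℕ) ∣ (q : ℕ) ^ n := dvd_pow_self _ hn.ne'
    have h2 : (q : ℕ) ^ n = m + 1 := by omega
    rw [h2] at h1
    exact q.2.one_lt.ne' (Nat.dvd_one.1 ((Nat.dvd_add_right h).1 h1))
  haveI : NeZero (m : ℚ) := ⟨by exact_mod_cast hm0⟩
  obtain ⟨ζ, hζ⟩ := HasEnoughRootsOfUnity.exists_primitiveRoot Qbar m
  have hF : FiniteDimensional ℚ ℚ⟮ζ⟯ :=
    IntermediateField.adjoin.finiteDimensional (Fermat.Agent.S55.GL.KummerUnram.isIntegral_Qbar ζ)
  refine ⟨(ℚ⟮ζ⟯).fixingSubgroup.normalCore.comap (primeLocalToGlobal q),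
    normalCore_comap_mem_localLevel (primeLocalToGlobal q) hF, fun j hj => ?_⟩
  have hle : localInertia q ⊔ (ℚ⟮ζ⟯).fixingSubgroup.normalCore.comap (primeLocalToGlobal q) ≤
      (ℚ⟮ζ⟯).fixingSubgroup.comap (primeLocalToGlobal q) := by
    refine sup_le (fun τ hτ => ?_) (Subgroup.comap_mono (Subgroup.normalCore_le _))
    rw [Subgroup.mem_comap]
    exact Fermat.Agent.S55.GL.KummerUnram.mem_fixingSubgroup_adjoin_simple
      (apply_root_of_mem_inertia (primeLocalPlace q) (liesOverPrime_primeLocalPlace q) hcop hτ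
        hζ.pow_eq_one)
  have h1 := hle hj
  rw [Subgroup.mem_comap, Fermat.Agent.S55.GL.KummerUnram.mem_fixingSubgroup_adjoin_simple_iff,
    map_pow, IsFrobeniusAt.pow_apply_root (primeLocalPlace q) (liesOverPrime_primeLocalPlace q)
      hcop hφ j hζ.pow_eq_one] at h1
  have hζ0 : ζ ≠ 0 := hζ.ne_zero hm0
  have hqj : 1 ≤ (q : ℕ) ^ j := Nat.one_le_pow _ _ q.2.pos
  have h2 : ζ ^ ((q : ℕ) ^ j - 1) = 1 := by
    have h3 : ζ ^ ((q : ℕ) ^ j - 1) * ζ = ζ := by
      rw [← pow_succ, Nat.sub_add_cancel hqj]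
      exact h1
    exact mul_right_cancel₀ hζ0 (by rw [h3, one_mul])
  exact dvd_of_pow_sub_one_dvd hq2 (hζ.dvd_of_pow_eq_one _ h2)

end Local

end Fermat.Agent.S56.Places.Frob
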