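/-
S56, block H1b of the blueprint (`moonshots` row 50), leaf (P3) (helper27): **level constancy in
the frozen shape, and discreteness of `M = ad⁰ρ̄`, `M' = M^*(1)`.**

The frozen statement S56 indexes the ramification sets by `Finset ℕ` (`Smin`, `S`,
`Smin ∪ Finset.univ.image qv`) and phrases "unramified outside `T`" as
`∀ q : ℕ, q.Prime → q ∉ T → ρ.IsUnramifiedAt q`; the cohomological machine of S55 uses
`globalLevel T'` with `T' : Finset Nat.Primes`.

* (P0) `primesOf (T : Finset ℕ) : Finset Nat.Primes` with `mem_primesOf`, `mkPrime`, monotonicity,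
  unions, `pPrime_mem_primesOf`;
* (P3) `ker_mem_globalLevel_of_monoidHom` (a homomorphism out of `Γ = Gal(ℚ̄/ℚ)` trivial on some
  `Gal(ℚ̄/F)`, `F/ℚ` finite, and on all inertia groups outside `T` has its kernel in
  `(globalLevel T).sets`), `ker_mem_globalLevel_of_rep` (a `GaloisRepAdic A` with `𝔪_A ^ n = 0`,
  unramified outside `T`), `ker_mem_globalLevel_of_residual` (a `ResidualGaloisRep`), their
  `Finset ℕ` versions `…_nat` in the frozen shape, `isLevel₁_of_factors`, `isLevel₁_of_rep`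
  (every function of `σ` which only depends on `ρ σ` is a level map), `isDiscrete_of_le_ker`;
* corollaries: `ad0_ρ_eq_one_of_mem_ker`, `ker_le_ker_ad0`, `isDiscrete_ad0`, `isDiscrete_ad0'`
  (`IsDiscrete (globalLevel (primesOf T)) (ad0 ρbar p)` and the same for
  `ad0' ρbar p = (ad0 ρbar p).dualTwist (cycloChar p)` when `ρ̄` is unramified outside `T ∋ p`),
  `isUnramifiedAt_of_hmin` (the frozen `hmin` gives the hypothesis for `T ⊇ Smin`).
-/
import Mathlib
import Fermat.Agent.S55.LevelGlobal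
import Fermat.Agent.S56.Ad.Ad0
import Fermat.Agent.S56.Ad.Ad0Dual
import Fermat.Prelude.Def_GaloisRep_StrictOrdinary
import Fermat.Prelude.Def_ExtEndgame_ProductionDatum

set_option autoImplicit false
set_option linter.unusedSectionVars false

open CategoryTheory ExtCitation IsLocalRing

namespace Fermat.Agent.S56.Places.Level

open Fermat.Agent.S55 Fermat.Agent.S55.Level Fermat.Agent.S56.Ad

local notation "Qbar" => AlgebraicClosure ℚ
local notation "Γ" => (AlgebraicClosure ℚ ≃ₐ[ℚ] AlgebraicClosure ℚ)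

/-! ### (P0) finite sets of primes -/

/-- the primes in a finite set of natural numbers, as a `Finset Nat.Primes` (the index sets of
S55) -/
def primesOf (T : Finset ℕ) : Finset Nat.Primes := T.subtype Nat.Prime

@[simp] theorem mem_primesOf {T : Finset ℕ} {q : Nat.Primes} : q ∈ primesOf T ↔ (q : ℕ) ∈ T :=
  Finset.mem_subtype

/-- a prime number as an element of `Nat.Primes` -/
def mkPrime {q : ℕ} (hq : q.Prime) : Nat.Primes := ⟨q, hq⟩

@[simp] theorem coe_mkPrime {q : ℕ} (hq : q.Prime) : ((mkPrime hq : Nat.Primes) : ℕ) = q := rfl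

theorem mkPrime_mem_primesOf {T : Finset ℕ} {q : ℕ} (hq : q.Prime) :
    mkPrime hq ∈ primesOf T ↔ q ∈ T := mem_primesOf

theorem primesOf_mono {T T' : Finset ℕ} (h : T ⊆ T') : primesOf T ⊆ primesOf T' := fun _ hq =>
  mem_primesOf.2 (h (mem_primesOf.1 hq))

theorem primesOf_union (T T' : Finset ℕ) : primesOf (T ∪ T') = primesOf T ∪ primesOf T' := by
  classical
  ext q
  simp only [mem_primesOf, Finset.mem_union]

theorem pPrime_mem_primesOf {p : ℕ} [Fact p.Prime] {T : Finset ℕ} (hp : p ∈ T) :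
    pPrime p ∈ primesOf T := mem_primesOf.2 hp

/-- "outside `T`" for `Finset ℕ` (frozen shape) gives "outside `primesOf T`" (S55 shape) -/
theorem forall_primes_of_forall_nat {T : Finset ℕ} {P : ℕ → Prop}
    (h : ∀ q : ℕ, q.Prime → q ∉ T → P q) : ∀ q : Nat.Primes, q ∉ primesOf T → P (q : ℕ) :=
  fun q hq => h q q.2 fun hqT => hq (mem_primesOf.2 hqT)

/-! ### (P3) level constancy -/

section Level

variable (T : Finset Nat.Primes)

/-- **Membership criterion for `globalLevel T`**: the kernel of a homomorphism which is trivial on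
`Gal(ℚ̄/F)` for some finite `F/ℚ` and on all inertia groups at the primes outside `T`. -/
theorem ker_mem_globalLevel_of_monoidHom {G : Type*} [MulOneClass G] (f : Γ →* G)
    (hopen : ∃ F : IntermediateField ℚ Qbar, FiniteDimensional ℚ F ∧ F.fixingSubgroup ≤ f.ker)
    (hur : ∀ q : Nat.Primes, q ∉ T → ∀ A : ValuationSubring Qbar, A.LiesOverPrime (q : ℕ) →
      ∀ σ ∈ A.inertiaSubgroupIn ℚ, f σ = 1) : f.ker ∈ (globalLevel T).sets :=
  LevelGlobal.mem_globalLevel_of_inertia_le (MonoidHom.normal_ker f) hopen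
    fun q hq A hA σ hσ => MonoidHom.mem_ker.2 (hur q hq A hA σ hσ)

/-- a representation over an Artinian local ring factors through a finite level -/
theorem exists_fixingSubgroup_le_ker {A : Type} [CommRing A] [IsLocalRing A] (ρ : GaloisRepAdic A)
    {n : ℕ} (hn : maximalIdeal A ^ n = ⊥) :
    ∃ F : IntermediateField ℚ Qbar, FiniteDimensional ℚ F ∧ F.fixingSubgroup ≤ ρ.ρ.ker := by
  obtain ⟨L, hL, h⟩ := ρ.isAdicContinuous n
  refine ⟨L, hL, fun σ hσ => ?_⟩
  rw [MonoidHom.mem_ker]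
  refine LinearMap.ext fun v => ?_
  have hv := h σ (fun x hx => (IntermediateField.mem_fixingSubgroup_iff L σ).1 hσ x hx) v
  rw [hn, Submodule.bot_smul, Submodule.mem_bot, sub_eq_zero] at hv
  rw [hv]
  rfl

/-- a residual representation factors through a finite level -/
theorem exists_fixingSubgroup_le_ker_residual {k : Type} [Field k] (ρbar : ResidualGaloisRep k) :
    ∃ F : IntermediateField ℚ Qbar, FiniteDimensional ℚ F ∧ F.fixingSubgroup ≤ ρbar.ρ.ker := by
  obtain ⟨L, hL, h⟩ := ρbar.factorsThroughFiniteLevel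
  exact ⟨L, hL, fun σ hσ => MonoidHom.mem_ker.2
    (h σ fun x hx => (IntermediateField.mem_fixingSubgroup_iff L σ).1 hσ x hx)⟩

/-- **the kernel of a representation over an Artinian local ring, unramified outside `T`, is a
member of `globalLevel T`** -/
theorem ker_mem_globalLevel_of_rep {A : Type} [CommRing A] [IsLocalRing A] (ρ : GaloisRepAdic A)
    {n : ℕ} (hn : maximalIdeal A ^ n = ⊥)
    (hur : ∀ q : Nat.Primes, q ∉ T → ρ.IsUnramifiedAt (q : ℕ)) :
    ρ.ρ.ker ∈ (globalLevel T).sets :=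
  ker_mem_globalLevel_of_monoidHom T ρ.ρ (exists_fixingSubgroup_le_ker ρ hn)
    fun q hq A hA σ hσ => hur q hq A hA σ hσ

/-- the same for a residual representation -/
theorem ker_mem_globalLevel_of_residual {k : Type} [Field k] (ρbar : ResidualGaloisRep k)
    (hur : ∀ q : Nat.Primes, q ∉ T → ρbar.IsUnramifiedAt (q : ℕ)) :
    ρbar.ρ.ker ∈ (globalLevel T).sets :=
  ker_mem_globalLevel_of_monoidHom T ρbar.ρ (exists_fixingSubgroup_le_ker_residual ρbar)
    fun q hq A hA σ hσ => hur q hq A hA σ hσ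

/-- a map on `Γ` which factors through a homomorphism with kernel in the level structure is a level
map (`IsLevel₁`) -/
theorem isLevel₁_of_factors {G : Type*} [Monoid G] {X : Type*} (f : Γ →* G)
    (hf : f.ker ∈ (globalLevel T).sets) (c : Γ → X) (hc : ∀ g g' : Γ, f g = f g' → c g = c g') :
    IsLevel₁ (globalLevel T) c :=
  ⟨f.ker, hf, fun g s hs => hc _ _ (by rw [map_mul, MonoidHom.mem_ker.1 hs, mul_one])⟩

/-- a `Rep` which is trivial on a member of the level structure is discrete -/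
theorem isDiscrete_of_le_ker {k : Type} [CommRing k] (M : Rep k Γ) {U : Subgroup Γ}
    (hU : U ∈ (globalLevel T).sets) (h : U ≤ M.ρ.ker) : IsDiscrete (globalLevel T) M :=
  ⟨fun a => ⟨U, hU, fun u hu => by rw [MonoidHom.mem_ker.1 (h hu)]; rfl⟩⟩

end Level

/-! ### the same in the frozen shape (`T : Finset ℕ`) -/

section Frozen

variable (T : Finset ℕ)

/-- **Level constancy, frozen shape**: a lift over an Artinian local ring which is unramified
outside `T` (in the shape of `GaloisRep.strictOrdinaryCondition` / `flatCondition`) has its kernel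
in `globalLevel (primesOf T)`. -/
theorem ker_mem_globalLevel_of_rep_nat {A : Type} [CommRing A] [IsLocalRing A]
    (ρ : GaloisRepAdic A) {n : ℕ} (hn : maximalIdeal A ^ n = ⊥)
    (hur : ∀ q : ℕ, q.Prime → q ∉ T → ρ.IsUnramifiedAt q) :
    ρ.ρ.ker ∈ (globalLevel (primesOf T)).sets :=
  ker_mem_globalLevel_of_rep (primesOf T) ρ hn (forall_primes_of_forall_nat hur)

theorem ker_mem_globalLevel_of_residual_nat {k : Type} [Field k] (ρbar : ResidualGaloisRep k)
    (hur : ∀ q : ℕ, q.Prime → q ∉ T → ρbar.IsUnramifiedAt q) :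
    ρbar.ρ.ker ∈ (globalLevel (primesOf T)).sets :=
  ker_mem_globalLevel_of_residual (primesOf T) ρbar (forall_primes_of_forall_nat hur)

/-- **every function of `σ` which only depends on `ρ σ` is a level map for
`globalLevel (primesOf T)`** (`ρ` over an Artinian local ring, unramified outside `T`) -/
theorem isLevel₁_of_rep {A : Type} [CommRing A] [IsLocalRing A]
    (ρ : GaloisRepAdic A) {n : ℕ} (hn : maximalIdeal A ^ n = ⊥)
    (hur : ∀ q : ℕ, q.Prime → q ∉ T → ρ.IsUnramifiedAt q)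
    {X : Type*} (c : Γ → X) (hc : ∀ g g' : Γ, ρ.ρ g = ρ.ρ g' → c g = c g') :
    IsLevel₁ (globalLevel (primesOf T)) c :=
  isLevel₁_of_factors (primesOf T) ρ.ρ (ker_mem_globalLevel_of_rep_nat T ρ hn hur) c hc

theorem isLevel₁_of_residual {k : Type} [Field k] (ρbar : ResidualGaloisRep k)
    (hur : ∀ q : ℕ, q.Prime → q ∉ T → ρbar.IsUnramifiedAt q)
    {X : Type*} (c : Γ → X) (hc : ∀ g g' : Γ, ρbar.ρ g = ρbar.ρ g' → c g = c g') :
    IsLevel₁ (globalLevel (primesOf T)) c :=
  isLevel₁_of_factors (primesOf T) ρbar.ρ (ker_mem_globalLevel_of_residual_nat T ρbar hur) c hc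

/-- the frozen hypothesis `hmin` of S56 makes `ρ̄` unramified outside every `T ⊇ Smin` containing
`p`… in fact outside `T` at all primes `q ≠ p`; `p ∈ T` takes care of `p`. -/
theorem isUnramifiedAt_of_hmin {k : Type} [Field k] (ρbar : ResidualGaloisRep k) {p : ℕ}
    {Smin : Finset ℕ} (hpSmin : p ∈ Smin)
    (hmin : ∀ q : ℕ, q.Prime → q ≠ p → (q ∈ Smin ↔ ¬ ρbar.IsUnramifiedAt q))
    (hT : Smin ⊆ T) : ∀ q : ℕ, q.Prime → q ∉ T → ρbar.IsUnramifiedAt q := by
  intro q hq hqT
  have hqS : q ∉ Smin := fun h => hqT (hT h)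
  have hqp : q ≠ p := fun h => hqS (h ▸ hpSmin)
  by_contra hur
  exact hqS ((hmin q hq hqp).2 hur)

end Frozen

/-! ### `M = ad⁰ρ̄` and `M' = M^*(1)` are discrete -/

section Ad0

variable {k : Type} [Field k] (ρbar : ResidualGaloisRep k)
variable (p : ℕ) [Fact p.Prime] [Algebra (ZMod p) k]

theorem ad0_ρ_eq_one_of_mem_ker {σ : Γ} (h : σ ∈ ρbar.ρ.ker) : (ad0 ρbar p).ρ σ = 1 :=
  ad0_ρ_eq_one_of_rho_eq_one ρbar p (MonoidHom.mem_ker.1 h)

theorem ker_le_ker_ad0 : ρbar.ρ.ker ≤ (ad0 ρbar p).ρ.ker := fun _ h =>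
  MonoidHom.mem_ker.2 (ad0_ρ_eq_one_of_mem_ker ρbar p h)

/-- **`M = ad⁰ρ̄` is discrete for `globalLevel (primesOf T)`** when `ρ̄` is unramified outside
`T`. -/
theorem isDiscrete_ad0 (T : Finset ℕ)
    (hur : ∀ q : ℕ, q.Prime → q ∉ T → ρbar.IsUnramifiedAt q) :
    IsDiscrete (globalLevel (primesOf T)) (ad0 ρbar p) :=
  isDiscrete_of_le_ker (primesOf T) (ad0 ρbar p)
    (ker_mem_globalLevel_of_residual_nat T ρbar hur) (ker_le_ker_ad0 ρbar p)

variable [Module.Finite (ZMod p) k]

theorem ker_inf_ker_le_ker_ad0' :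
    ρbar.ρ.ker ⊓ (cycloChar p).ker ≤ (ad0' ρbar p).ρ.ker := fun _ h =>
  MonoidHom.mem_ker.2
    (ad0'_ρ_eq_one ρbar p (MonoidHom.mem_ker.1 h.1) (MonoidHom.mem_ker.1 h.2))

/-- a member of `globalLevel (primesOf T)` on which `M' = M^*(1)` is trivial (`p ∈ T`, `ρ̄`
unramified outside `T`) -/
theorem exists_mem_globalLevel_le_ker_ad0' (T : Finset ℕ) (hp : p ∈ T)
    (hur : ∀ q : ℕ, q.Prime → q ∉ T → ρbar.IsUnramifiedAt q) :
    ∃ U ∈ (globalLevel (primesOf T)).sets, U ≤ ρbar.ρ.ker ∧ U ≤ (cycloChar p).ker ∧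
      U ≤ (ad0 ρbar p).ρ.ker ∧ U ≤ (ad0' ρbar p).ρ.ker := by
  obtain ⟨W, hW, hle⟩ := (globalLevel (primesOf T)).directed _
    (ker_mem_globalLevel_of_residual_nat T ρbar hur) _
    (LevelGlobal.ker_cycloChar_mem_globalLevel (S := primesOf T) p (pPrime_mem_primesOf hp))
  exact ⟨W, hW, hle.trans inf_le_left, hle.trans inf_le_right,
    (hle.trans inf_le_left).trans (ker_le_ker_ad0 ρbar p),
    hle.trans (ker_inf_ker_le_ker_ad0' ρbar p)⟩

/-- **`M' = (ad⁰ρ̄)^*(1)` is discrete for `globalLevel (primesOf T)`** when `p ∈ T` and `ρ̄` is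
unramified outside `T`. -/
theorem isDiscrete_ad0' (T : Finset ℕ) (hp : p ∈ T)
    (hur : ∀ q : ℕ, q.Prime → q ∉ T → ρbar.IsUnramifiedAt q) :
    IsDiscrete (globalLevel (primesOf T)) (ad0' ρbar p) := by
  obtain ⟨U, hU, -, -, -, h⟩ := exists_mem_globalLevel_le_ker_ad0' ρbar p T hp hur
  exact isDiscrete_of_le_ker (primesOf T) (ad0' ρbar p) hU h

/-- both, from the frozen hypotheses of S56, for every `T ⊇ Smin` -/
theorem isDiscrete_ad0_of_hmin {Smin : Finset ℕ} (hpSmin : p ∈ Smin)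
    (hmin : ∀ q : ℕ, q.Prime → q ≠ p → (q ∈ Smin ↔ ¬ ρbar.IsUnramifiedAt q))
    (T : Finset ℕ) (hT : Smin ⊆ T) :
    IsDiscrete (globalLevel (primesOf T)) (ad0 ρbar p) ∧
      IsDiscrete (globalLevel (primesOf T)) (ad0' ρbar p) :=
  ⟨isDiscrete_ad0 ρbar p T (isUnramifiedAt_of_hmin T ρbar hpSmin hmin hT),
    isDiscrete_ad0' ρbar p T (hT hpSmin) (isUnramifiedAt_of_hmin T ρbar hpSmin hmin hT)⟩

end Ad0

end Fermat.Agent.S56.Places.Level
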