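/-
S56, block H1b of the blueprint (`moonshots` row 50), leaf (B) (helper27): **helper17's hypothesis
package `UnramData` for EVERY Frobenius lift of the local Galois group.**

For every prime `q` and every `φ ∈ G_q = primeLocalGaloisGroup q` whose image in `Gal(ℚ̄/ℚ)` is a
Frobenius element at THE place of `q` in the frozen sense (`Places.Frob.IsLocalFrob q φ`; one exists
by `Places.Frob.exists_isLocalFrob`):
`UnramData (localLevel (primeLocalToGlobal q)) (localInertia q) φ`, where `localInertia q` is
helper10's `Places.Dict.localInertia q`
(`= ((primeLocalPlace q).inertiaSubgroupIn ℚ).comap (primeLocalToGlobal q)`, the same term as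
helper17's `PT.UnramInst.localInertia`).

(helper17's `PT/UnramInst.lean` proves the package for ONE chosen lift `frobLift q` through the
local unramified tower; this file gives it for all lifts which are Frobenius elements in the sense
of the frozen statement, which is what the Taylor–Wiles clauses speak about.)
-/
import Fermat.Agent.S56.PT.Unram
import Fermat.Agent.S56.Places.Frob

set_option autoImplicit false

namespace Fermat.Agent.S56.Places.FrobUnram

open ExtCitation Fermat.Agent.S55.Level Fermat.Agent.S56.Places.Dict Fermat.Agent.S56.Places.Frob
open Fermat.Agent.S56.PT.Unram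

/-- **the unramified package of the local group `G_q`** for an arbitrary Frobenius lift `φ` -/
theorem unramData_of_isLocalFrob {q : Nat.Primes} {φ : primeLocalGaloisGroup q}
    (hφ : IsLocalFrob q φ) :
    UnramData (localLevel (primeLocalToGlobal q)) (localInertia q) φ where
  normal := localInertia_normal q
  gen := isLocalFrob_gen hφ
  div := isLocalFrob_div hφ

/-- a Frobenius lift (in the frozen sense) together with its package -/
theorem exists_isLocalFrob_unramData (q : Nat.Primes) :
    ∃ φ : primeLocalGaloisGroup q, IsLocalFrob q φ ∧
      UnramData (localLevel (primeLocalToGlobal q)) (localInertia q) φ := by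
  obtain ⟨φ, hφ⟩ := exists_isLocalFrob q
  exact ⟨φ, hφ, unramData_of_isLocalFrob hφ⟩

end Fermat.Agent.S56.Places.FrobUnram
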